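import Mathlib
import Fermat.Prelude.Def_FreyPackage_LevelRaising
import Fermat.Prelude.Thm_CuspForm_heckeTLin_comm
import Fermat.Prelude.Thm_CuspForm_heckeTLin_heckeULin_comm
import Fermat.Prelude.Thm_CuspForm_heckeULin_comm
import Fermat.Agent.S49.CommonEigen
import Fermat.Agent.S49.Eigenform
import Fermat.Agent.S49.HeckeFinite

/-!
# P-LR / LR-NEW (helper7, second seat): from a `q`-new Hecke eigenvector to a normalised eigenform

`h7new_exists`: let `g ≠ 0` be a weight-2 cusp form on `Γ₀(M)`, `q ∣ M`, such that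

* `T_ℓ g = lam ℓ • g` for all primes `ℓ ∤ M` in a set `P0` (the anemic Hecke algebra), and
* `U_q (U_q g) = g` (a consequence of the vanishing of both traces to level `M / q`).

Then there is a NORMALISED EIGENFORM `g'` on `Γ₀(M)` with `a_ℓ(g') = lam ℓ` for the primes
`ℓ ∤ M`, `ℓ ∈ P0`, and `a_q(g') ^ 2 = 1` (`g'.IsNewAt q`).

No Atkin–Lehner operator and no `q`-new subspace are needed: the subspace
`{x | T_ℓ x = lam ℓ x (ℓ ∈ P0), U_q² x = x}` is nonzero, finite dimensional and stable under the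
commuting family of all Hecke operators, so it contains a common eigenvector.
-/

set_option autoImplicit false
set_option linter.style.haveILetI false

namespace Fermat.Agent.LR

open ModularFormClass CongruenceSubgroup UpperHalfPlane

variable {M : ℕ} [NeZero M]

/-- the family of all Hecke operators `T_p` (`p ∤ M` prime), `U_p` (`p ∣ M`) in weight 2. -/
def h7new_family (M : ℕ) [NeZero M] : Set (Module.End ℂ (CuspForm (Gamma0 M) 2)) :=
  {T | (∃ (p : ℕ) (hp : p.Prime) (hpM : ¬ p ∣ M), T = CuspForm.heckeTLin 2 hp hpM) ∨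
    (∃ (p : ℕ) (hpM : p ∣ M), T = CuspForm.heckeULin 2 hpM)}

theorem h7new_family_comm (T T' : Module.End ℂ (CuspForm (Gamma0 M) 2))
    (hT : T ∈ h7new_family M) (hT' : T' ∈ h7new_family M) : Commute T T' := by
  rcases hT with ⟨p, hp, hpM, rfl⟩ | ⟨p, hpM, rfl⟩
  · rcases hT' with ⟨p', hp', hpM', rfl⟩ | ⟨p', hpM', rfl⟩
    · exact CuspForm.heckeTLin_comm 2 hp hpM hp' hpM'
    · exact CuspForm.heckeTLin_heckeULin_comm 2 hp hpM hpM'
  · rcases hT' with ⟨p', hp', hpM', rfl⟩ | ⟨p', hpM', rfl⟩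
    · exact (CuspForm.heckeTLin_heckeULin_comm 2 hp' hpM' hpM).symm
    · exact CuspForm.heckeULin_comm 2 hpM hpM'

/-- the subspace cut out by the anemic eigen-equations and `U_q² = 1`. -/
def h7new_sub {q : ℕ} (hqM : q ∣ M) (P0 : Set ℕ) (lam : ℕ → ℂ) :
    Submodule ℂ (CuspForm (Gamma0 M) 2) where
  carrier := {x | (∀ (ℓ : ℕ) (hℓ : ℓ.Prime) (hℓM : ¬ ℓ ∣ M), ℓ ∈ P0 →
      CuspForm.heckeTLin 2 hℓ hℓM x = lam ℓ • x) ∧
    CuspForm.heckeULin 2 hqM (CuspForm.heckeULin 2 hqM x) = x}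
  add_mem' := by
    rintro x y ⟨hx, hx'⟩ ⟨hy, hy'⟩
    refine ⟨fun ℓ hℓ hℓM hP => ?_, ?_⟩
    · rw [map_add, hx ℓ hℓ hℓM hP, hy ℓ hℓ hℓM hP, smul_add]
    · rw [map_add, map_add, hx', hy']
  zero_mem' := by
    refine ⟨fun ℓ hℓ hℓM _ => ?_, ?_⟩
    · rw [map_zero, smul_zero]
    · rw [map_zero, map_zero]
  smul_mem' := by
    rintro c x ⟨hx, hx'⟩
    refine ⟨fun ℓ hℓ hℓM hP => ?_, ?_⟩
    · rw [map_smul, hx ℓ hℓ hℓM hP, smul_comm]
    · rw [map_smul, map_smul, hx']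

theorem h7new_mem_sub {q : ℕ} (hqM : q ∣ M) (P0 : Set ℕ) (lam : ℕ → ℂ)
    (x : CuspForm (Gamma0 M) 2) :
    x ∈ h7new_sub hqM P0 lam ↔
      (∀ (ℓ : ℕ) (hℓ : ℓ.Prime) (hℓM : ¬ ℓ ∣ M), ℓ ∈ P0 →
        CuspForm.heckeTLin 2 hℓ hℓM x = lam ℓ • x) ∧
      CuspForm.heckeULin 2 hqM (CuspForm.heckeULin 2 hqM x) = x := Iff.rfl

theorem h7new_sub_stable {q : ℕ} (hqM : q ∣ M) (P0 : Set ℕ) (lam : ℕ → ℂ)
    (T : Module.End ℂ (CuspForm (Gamma0 M) 2)) (hT : T ∈ h7new_family M)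
    (x : CuspForm (Gamma0 M) 2) (hx : x ∈ h7new_sub hqM P0 lam) :
    T x ∈ h7new_sub hqM P0 lam := by
  obtain ⟨hx1, hx2⟩ := hx
  refine ⟨fun ℓ hℓ hℓM hP => ?_, ?_⟩
  · have hc : Commute (CuspForm.heckeTLin 2 hℓ hℓM) T :=
      h7new_family_comm _ _ (Or.inl ⟨ℓ, hℓ, hℓM, rfl⟩) hT
    have h1 : CuspForm.heckeTLin 2 hℓ hℓM (T x) = T (CuspForm.heckeTLin 2 hℓ hℓM x) :=
      congrArg (fun f : Module.End ℂ (CuspForm (Gamma0 M) 2) => f x) hc.eq
    rw [h1, hx1 ℓ hℓ hℓM hP, map_smul]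
  · have hc : Commute (CuspForm.heckeULin 2 hqM) T :=
      h7new_family_comm _ _ (Or.inr ⟨_, hqM, rfl⟩) hT
    have h1 : ∀ y, CuspForm.heckeULin 2 hqM (T y) = T (CuspForm.heckeULin 2 hqM y) := fun y =>
      congrArg (fun f : Module.End ℂ (CuspForm (Gamma0 M) 2) => f y) hc.eq
    rw [h1, h1, hx2]

/-- **LR-NEW.** A nonzero anemic eigenvector `g` with `U_q² g = g` yields a normalised
eigenform with the same anemic eigenvalues and `a_q² = 1`. -/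
theorem h7new_exists {q : ℕ} (hq : q.Prime) (hqM : q ∣ M) (P0 : Set ℕ) (lam : ℕ → ℂ)
    (g : CuspForm (Gamma0 M) 2) (hg : g ≠ 0)
    (hT : ∀ (ℓ : ℕ) (hℓ : ℓ.Prime) (hℓM : ¬ ℓ ∣ M), ℓ ∈ P0 →
      CuspForm.heckeTLin 2 hℓ hℓM g = lam ℓ • g)
    (hU2 : CuspForm.heckeULin 2 hqM (CuspForm.heckeULin 2 hqM g) = g) :
    ∃ g' : CuspForm (Gamma0 M) 2, g'.IsNormalizedEigenform ∧
      (∀ ℓ : ℕ, ℓ.Prime → ¬ ℓ ∣ M → ℓ ∈ P0 → qCoeff ⇑g' ℓ = lam ℓ) ∧ g'.IsNewAt q := by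
  classical
  haveI : FiniteDimensional ℂ (CuspForm (Gamma0 M) 2) :=
    Fermat.Agent.S49.finiteDimensional_cuspForm M 2
  have hW : h7new_sub hqM P0 lam ≠ ⊥ := by
    intro h
    have hmem : g ∈ h7new_sub hqM P0 lam := ⟨hT, hU2⟩
    rw [h] at hmem
    exact hg ((Submodule.mem_bot ℂ).1 hmem)
  obtain ⟨v, hvW, hv0, hv⟩ := Fermat.Agent.S49.exists_common_eigenvector (h7new_family M)
    (fun T hT T' hT' => h7new_family_comm T T' hT hT') (h7new_sub hqM P0 lam) hW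
    (fun T hT w hw => h7new_sub_stable hqM P0 lam T hT w hw)
  obtain ⟨hv1, hv2⟩ := hvW
  -- the eigenvalues
  have hexT : ∀ (p : ℕ) (hp : p.Prime) (hpM : ¬ p ∣ M),
      ∃ μ : ℂ, CuspForm.heckeTLin 2 hp hpM v = μ • v :=
    fun p hp hpM => hv _ (Or.inl ⟨p, hp, hpM, rfl⟩)
  have hexU : ∀ (p : ℕ) (hpM : p ∣ M), ∃ μ : ℂ, CuspForm.heckeULin 2 hpM v = μ • v :=
    fun p hpM => hv _ (Or.inr ⟨p, hpM, rfl⟩)
  let lam' : ℕ → ℂ := fun p =>
    if hp : p.Prime then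
      (if hpM : p ∣ M then (hexU p hpM).choose else (hexT p hp hpM).choose)
    else 0
  have hT' : ∀ (p : ℕ) (hp : p.Prime) (hpM : ¬ p ∣ M),
      CuspForm.heckeTLin 2 hp hpM v = lam' p • v := by
    intro p hp hpM
    simp only [lam', dif_pos hp, dif_neg hpM]
    exact (hexT p hp hpM).choose_spec
  have hU' : ∀ (p : ℕ) (_ : p.Prime) (hpM : p ∣ M),
      CuspForm.heckeULin 2 hpM v = lam' p • v := by
    intro p hp hpM
    simp only [lam', dif_pos hp, dif_pos hpM]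
    exact (hexU p hpM).choose_spec
  obtain ⟨g', hg', hgl⟩ := Fermat.Agent.S49.exists_normalized_eigenform v hv0 lam' hT' hU'
  refine ⟨g', hg', ?_, ?_⟩
  · intro ℓ hℓ hℓM hP
    rw [hgl ℓ hℓ]
    have h1 := hT' ℓ hℓ hℓM
    rw [hv1 ℓ hℓ hℓM hP] at h1
    have h2 : (lam ℓ - lam' ℓ) • v = 0 := by rw [sub_smul, h1, sub_self]
    rcases smul_eq_zero.1 h2 with h3 | h3
    · exact (sub_eq_zero.1 h3).symm
    · exact absurd h3 hv0
  · show qCoeff ⇑g' q ^ 2 = 1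
    rw [hgl q hq]
    have h1 := hU' q hq hqM
    have h2 : (lam' q ^ 2 - 1) • v = 0 := by
      have h3 : CuspForm.heckeULin 2 hqM (CuspForm.heckeULin 2 hqM v) = (lam' q ^ 2) • v := by
        rw [h1, map_smul, h1, smul_smul, sq]
      rw [sub_smul, one_smul, ← h3, hv2, sub_self]
    rcases smul_eq_zero.1 h2 with h3 | h3
    · exact sub_eq_zero.1 h3
    · exact absurd h3 hv0

/-- **bridge from the two trace identities.** If `h` (think `h = g ∣[2] W_q`) satisfies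
`h + U_q g = 0` (`Tr₂ g = 0`) and `g + U_q h = 0` (`Tr₁ g = 0`) as functions on `ℍ`, then
`U_q (U_q g) = g`.  (`U_q` on functions is `ModularForm.heckeU 2 q = ∑_{j<q} · ∣[2] (1 j; 0 q)`.) -/
theorem h7new_U2_of_traces {q : ℕ} (hqM : q ∣ M) (g : CuspForm (Gamma0 M) 2) (h : ℍ → ℂ)
    (h1 : h + ModularForm.heckeU 2 q ⇑g = 0) (h2 : ⇑g + ModularForm.heckeU 2 q h = 0) :
    CuspForm.heckeULin 2 hqM (CuspForm.heckeULin 2 hqM g) = g := by
  apply DFunLike.coe_injective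
  rw [CuspForm.coe_heckeULin_apply, CuspForm.coe_heckeULin_apply]
  have hh : h = -ModularForm.heckeU 2 q ⇑g := eq_neg_of_add_eq_zero_left h1
  rw [hh, ModularForm.heckeU_neg] at h2
  have h3 : ⇑g - ModularForm.heckeU 2 q (ModularForm.heckeU 2 q ⇑g) = 0 := by
    rw [sub_eq_add_neg]
    exact h2
  exact (sub_eq_zero.1 h3).symm

/-- pointwise form of `h7new_U2_of_traces`. -/
theorem h7new_U2_of_traces' {q : ℕ} (hqM : q ∣ M) (g : CuspForm (Gamma0 M) 2) (h : ℍ → ℂ)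
    (h1 : ∀ z, h z + ModularForm.heckeU 2 q ⇑g z = 0)
    (h2 : ∀ z, g z + ModularForm.heckeU 2 q h z = 0) :
    CuspForm.heckeULin 2 hqM (CuspForm.heckeULin 2 hqM g) = g :=
  h7new_U2_of_traces hqM g h (funext fun z => by simpa using h1 z)
    (funext fun z => by simpa using h2 z)

/-- **LR-NEW, trace form.** -/
theorem h7new_exists_of_traces {q : ℕ} (hq : q.Prime) (hqM : q ∣ M) (P0 : Set ℕ) (lam : ℕ → ℂ)
    (g : CuspForm (Gamma0 M) 2) (hg : g ≠ 0)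
    (hT : ∀ (ℓ : ℕ) (hℓ : ℓ.Prime) (hℓM : ¬ ℓ ∣ M), ℓ ∈ P0 →
      CuspForm.heckeTLin 2 hℓ hℓM g = lam ℓ • g)
    (h : ℍ → ℂ) (h1 : ∀ z, h z + ModularForm.heckeU 2 q ⇑g z = 0)
    (h2 : ∀ z, g z + ModularForm.heckeU 2 q h z = 0) :
    ∃ g' : CuspForm (Gamma0 M) 2, g'.IsNormalizedEigenform ∧
      (∀ ℓ : ℕ, ℓ.Prime → ¬ ℓ ∣ M → ℓ ∈ P0 → qCoeff ⇑g' ℓ = lam ℓ) ∧ g'.IsNewAt q :=
  h7new_exists hq hqM P0 lam g hg hT (h7new_U2_of_traces' hqM g h h1 h2)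

end Fermat.Agent.LR
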